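import Fermat.Agent.JacRep.CurveA.Scheme

/-!
# The choice of a coordinate and its two charts

* `exists_coordinate`: near a given point take an etale coordinate and shift it by a constant
  avoiding finitely many bad values; the result is nonconstant, invertible at the point and has
  reduced zero fibre.
* `exists_basis_regOpen`, `away_regOpen`, `res_mul_res`: the charts are free over their coordinate
  and meet in the localisation.
* `exists_eq_const`: functions regular on both charts are constant.
* `exists_point`, `isPullback_fromSpec`, `isDedekindDomain_baseChange`: the rational point, the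
  intersection square and the Dedekind property after extension of scalars.
-/

set_option autoImplicit false
set_option linter.style.haveILetI false
set_option linter.unusedSectionVars false

noncomputable section

open CategoryTheory CategoryTheory.Limits AlgebraicGeometry TopologicalSpace
open scoped TensorProduct Polynomial

universe u

namespace FLTAgent.JacRep.CurveA

/-- A smooth affine curve stays Dedekind after extension of the ground field. -/
theorem isDedekindDomain_baseChange {k A : Type u} [Field k] [IsAlgClosed k] [CommRing A]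
    [IsDomain A] [Algebra k A] [Algebra.FiniteType k A]
    (hA : RingHom.Locally (RingHom.IsStandardSmoothOfRelativeDimension 1) (algebraMap k A))
    (L : Type u) [Field L] [Algebra k L] : IsDedekindDomain (L ⊗[k] A) := by
  haveI : IsDomain (L ⊗[k] A) := isDomain_tensorProduct
  letI : Algebra A (L ⊗[k] A) := Algebra.TensorProduct.rightAlgebra
  have h : RingHom.Locally (RingHom.IsStandardSmoothOfRelativeDimension 1)
      (algebraMap L (L ⊗[k] A)) :=
    RingHom.locally_isStableUnderBaseChange RingHom.isStandardSmoothOfRelativeDimension_respectsIso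
      (RingHom.isStandardSmoothOfRelativeDimension_isStableUnderBaseChange 1) k A L (L ⊗[k] A) hA
  exact isDedekindDomain_of_locally (K := L) h

variable {k : Type u} [Field k] {C : Scheme.{u}} (c : C ⟶ Spec (CommRingCat.of k))

theorem isUnit_secHom (W : C.Opens) {d : k} (hd : d ≠ 0) : IsUnit (secHom c W d) :=
  (IsUnit.mk0 d hd).map (secHom c W)

variable [IsIntegral C]

/-- The values to be avoided at a point. -/
def badSet (x₀ : C.functionField) (Q : C) : Set k :=
  {a | Q ∈ regOpen (x₀ - const c a) ∧ Q ∉ C.basicOpen (sec (x₀ - const c a))}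

/-- At each point at most one value is bad. -/
theorem badSet_subsingleton (x₀ : C.functionField) (Q : C) :
    (badSet c x₀ Q).Subsingleton := by
  rintro a ⟨h1, h1'⟩ a' ⟨h2, h2'⟩
  by_contra hne
  set x := x₀ - const c a
  set x' := x₀ - const c a'
  set W : C.Opens := regOpen x ⊓ regOpen x'
  have hη : genericPoint C ∈ W := ⟨gen_mem_regOpen x, gen_mem_regOpen x'⟩
  have hQ : Q ∈ W := ⟨h1, h2⟩
  rw [Scheme.mem_basicOpen C (sec x) Q h1] at h1'
  rw [Scheme.mem_basicOpen C (sec x') Q h2] at h2'
  have h : C.presheaf.map (homOfLE (inf_le_left : W ≤ regOpen x)).op (sec x) -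
      C.presheaf.map (homOfLE (inf_le_right : W ≤ regOpen x')).op (sec x') =
        secHom c W (a' - a) :=
    germGen_injective W hη (by
      rw [map_sub, germGen_res, germGen_res, germGen_sec, germGen_sec, germGen_secHom, map_sub]
      exact sub_sub_sub_cancel_left _ _ _)
  have hu : IsUnit (C.presheaf.germ W Q hQ (secHom c W (a' - a))) :=
    (isUnit_secHom c W (sub_ne_zero.mpr (Ne.symm hne))).map (C.presheaf.germ W Q hQ).hom
  rw [← h, map_sub, C.presheaf.germ_res_apply, C.presheaf.germ_res_apply, sub_eq_add_neg] at hu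
  rcases IsLocalRing.isUnit_or_isUnit_of_isUnit_add hu with hh | hh
  · exact h1' hh
  · exact h2' (neg_neg (C.presheaf.germ (regOpen x') Q h2 (sec x')) ▸ hh.neg)

variable [IsAlgClosed k] [IsProper c] [SmoothOfRelativeDimension 1 c]

/-- A standard smooth affine neighbourhood. -/
theorem exists_standardSmooth (P : C) :
    ∃ V : C.Opens, IsAffineOpen V ∧ P ∈ V ∧
      (secHom c V).IsStandardSmoothOfRelativeDimension 1 := by
  obtain ⟨U, hU, V, hV, hPV, e, h⟩ :=
    SmoothOfRelativeDimension.exists_isStandardSmoothOfRelativeDimension (n := 1) (f := c) P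
  obtain rfl : U = ⊤ := eq_top_iff.mpr fun z _ => by
    have hz : z = c P := Subsingleton.elim (α := PrimeSpectrum k) z (c P)
    rw [hz]
    exact e hPV
  exact ⟨V, hV, hPV, RingHom.isStandardSmoothOfRelativeDimension_respectsIso.2 _
    (Scheme.ΓSpecIso (CommRingCat.of k)).symm.commRingCatIsoToRingEquiv h⟩

omit [IsIntegral C] in
/-- An etale coordinate is not constant. -/
theorem etale_ne_const {S : Type u} [CommRing S] [Nontrivial S] [Algebra k S]
    [Algebra.IsStandardSmoothOfRelativeDimension 1 k S]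
    (φ : MvPolynomial (Fin 1) k →ₐ[k] S) (hφ : φ.toRingHom.Etale) (a : k) :
    φ (MvPolynomial.X 0) ≠ algebraMap k S a := by
  intro h0
  letI := φ.toRingHom.toAlgebra
  haveI : Algebra.Etale (MvPolynomial (Fin 1) k) S := hφ
  letI : Algebra (MvPolynomial (Fin 1) k) k := (MvPolynomial.aeval fun _ => a).toRingHom.toAlgebra
  have h : φ = (Algebra.ofId k S).comp (MvPolynomial.aeval fun _ => a) := by
    refine MvPolynomial.algHom_ext fun i => ?_
    obtain rfl := Subsingleton.elim i 0
    rw [h0, AlgHom.comp_apply, MvPolynomial.aeval_X]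
    rfl
  haveI : IsScalarTower (MvPolynomial (Fin 1) k) k S :=
    IsScalarTower.of_algebraMap_eq fun r => DFunLike.congr_fun h r
  haveI : Algebra.FormallyUnramified k S :=
    Algebra.FormallyUnramified.of_restrictScalars (MvPolynomial (Fin 1) k) k S
  have hr := Algebra.IsStandardSmoothOfRelativeDimension.rank_kaehlerDifferential (R := k) (S := S) 1
  rw [rank_subsingleton'] at hr
  simp at hr

/-- A coordinate with reduced zero fibre, invertible at a given point. -/
theorem exists_coordinate (P : C) :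
    ∃ x : C.functionField, (∀ a, x ≠ const c a) ∧ P ∈ C.basicOpen (sec x) ∧
      IsReduced (Γ(C, regOpen x) ⧸ Ideal.span {sec x}) := by
  obtain ⟨V, hV, hPV, hsm⟩ := exists_standardSmooth c P
  have hηV : genericPoint C ∈ V := gen_mem hPV
  haveI : Nonempty V := ⟨⟨P, hPV⟩⟩
  haveI := isDomain_sections hPV
  letI := secAlg c V
  haveI : Algebra.IsStandardSmoothOfRelativeDimension 1 k Γ(C, V) :=
    (RingHom.isStandardSmoothOfRelativeDimension_algebraMap 1).mp hsm
  haveI : Algebra.FiniteType k Γ(C, V) := finiteType_secHom c hV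
  obtain ⟨φ, hφ⟩ := AbVarTors.exists_etale_mvPolynomial (K := k) (S := Γ(C, V)) 1
  set x₀ := germGen V hηV (φ (MvPolynomial.X 0))
  have hZ : ((V : Set C)ᶜ).Finite :=
    finite_of_isClosed c V.isOpen.isClosed_compl (fun h => h hηV)
  have hF : (⋃ Q ∈ insert P (V : Set C)ᶜ, badSet c x₀ Q).Finite :=
    (hZ.insert P).biUnion fun Q _ => (badSet_subsingleton c x₀ Q).finite
  obtain ⟨a, ha⟩ := hF.exists_notMem
  simp only [Set.mem_iUnion, exists_prop, not_exists, not_and] at ha
  set x := x₀ - const c a
  set s := φ (MvPolynomial.X 0) - algebraMap k Γ(C, V) a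
  have hs : germGen V hηV s = x := by
    rw [map_sub]
    exact congrArg (x₀ - ·) (germGen_secHom c V hηV a)
  have hVU : V ≤ regOpen x := le_regOpen ⟨hηV, s, hs⟩
  have hsec : C.presheaf.map (homOfLE hVU).op (sec x) = s := eq_sec hηV hs hVU
  have hnc : ∀ b, x ≠ const c b := by
    intro b hb
    refine etale_ne_const φ hφ (a + b) (germGen_injective V hηV ?_)
    rw [show algebraMap k Γ(C, V) (a + b) = secHom c V (a + b) from rfl, germGen_secHom, map_add]
    rw [← hb]
    exact (add_sub_cancel (const c a) x₀).symm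
  have hgood : ∀ Q ∈ insert P (V : Set C)ᶜ, Q ∈ regOpen x → Q ∈ C.basicOpen (sec x) :=
    fun Q hQ hQU => by_contra fun h => ha Q hQ ⟨hQU, h⟩
  refine ⟨x, hnc, hgood P (Set.mem_insert _ _) (hVU hPV), ?_⟩
  have hx0 : x ≠ 0 := fun h => hnc 0 (by rw [map_zero]; exact h)
  haveI hred : IsReduced (Γ(C, V) ⧸ Ideal.span {s}) := isReduced_fibre φ hφ a
  let ρ : Γ(C, regOpen x) →+* Γ(C, V) := (C.presheaf.map (homOfLE hVU).op).hom
  let Ψ : (Γ(C, regOpen x) ⧸ Ideal.span {sec x}) →+* Γ(C, V) ⧸ Ideal.span {s} :=
    Ideal.quotientMap _ ρ (by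
      rw [Ideal.span_le, Set.singleton_subset_iff, SetLike.mem_coe, Ideal.mem_comap]
      exact Ideal.mem_span_singleton.mpr (by rw [show ρ (sec x) = s from hsec]))
  refine isReduced_of_injective Ψ ((injective_iff_map_eq_zero Ψ).mpr fun z hz => ?_)
  obtain ⟨f, rfl⟩ := Ideal.Quotient.mk_surjective z
  obtain ⟨g, hg⟩ := Ideal.mem_span_singleton'.mp (Ideal.Quotient.eq_zero_iff_mem.mp
    ((Ideal.quotientMap_mk (f := ρ)).symm.trans hz))
  set G := germGen (regOpen x) (gen_mem_regOpen x) f
  have hGg : germGen V hηV g * x = G := by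
    have h := congrArg (germGen V hηV) hg
    rw [map_mul, hs] at h
    exact h.trans (germGen_res hVU hηV f)
  set y := G / x
  have hyU : regOpen x ≤ regOpen y := by
    intro Q hQ
    by_cases hQV : Q ∈ V
    · refine le_regOpen ⟨hηV, g, ?_⟩ hQV
      rw [eq_div_iff hx0]
      exact hGg
    · have h := hgood Q (Set.mem_insert_of_mem _ hQV) hQ
      rw [basicOpen_sec hx0] at h
      have hη : genericPoint C ∈ regOpen x ⊓ regOpen x⁻¹ :=
        ⟨gen_mem_regOpen x, gen_mem_regOpen x⁻¹⟩
      refine le_regOpen (U := regOpen x ⊓ regOpen x⁻¹) ⟨hη,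
        C.presheaf.map (homOfLE inf_le_left).op f *
          C.presheaf.map (homOfLE inf_le_right).op (sec x⁻¹), ?_⟩ h
      rw [map_mul, germGen_res, germGen_res, germGen_sec]
      exact (div_eq_mul_inv _ _).symm
  rw [Ideal.Quotient.eq_zero_iff_mem, Ideal.mem_span_singleton]
  refine ⟨C.presheaf.map (homOfLE hyU).op (sec y), germGen_injective _ (gen_mem_regOpen x) ?_⟩
  rw [map_mul, germGen_res, germGen_sec, germGen_sec, mul_div_cancel₀ _ hx0]

omit [IsProper c] [SmoothOfRelativeDimension 1 c] [IsAlgClosed k] in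
theorem inv_ne_const {x : C.functionField} (hx : ∀ a, x ≠ const c a) (a : k) :
    x⁻¹ ≠ const c a := by
  intro h
  refine hx a⁻¹ ?_
  rw [map_inv₀, ← h, inv_inv]

omit [IsProper c] [SmoothOfRelativeDimension 1 c] [IsAlgClosed k] in
/-- The coordinates are inverse on the overlap. -/
theorem res_mul_res {x : C.functionField} (hx : x ≠ 0) :
    C.presheaf.map (homOfLE (inf_le_left : regOpen x ⊓ regOpen x⁻¹ ≤ regOpen x)).op (sec x) *
      C.presheaf.map (homOfLE (inf_le_right : regOpen x ⊓ regOpen x⁻¹ ≤ regOpen x⁻¹)).op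
        (sec x⁻¹) = 1 :=
  germGen_injective _ (show genericPoint C ∈ regOpen x ⊓ regOpen x⁻¹ from
    ⟨gen_mem_regOpen x, gen_mem_regOpen x⁻¹⟩) (by
    rw [map_mul, germGen_res, germGen_res, germGen_sec, germGen_sec, map_one, mul_inv_cancel₀ hx])

/-- The chart of a function: free of finite rank over its coordinate. -/
theorem exists_basis_regOpen {x : C.functionField} (hx : ∀ a, x ≠ const c a) :
    letI := secAlg c (regOpen x)
    ∃ (n : ℕ) (b : Fin n → Γ(C, regOpen x)),
      Function.Bijective fun p : Fin n → k[X] => ∑ i, Polynomial.aeval (sec x) (p i) * b i := by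
  haveI := isDomain_sections (gen_mem_regOpen x)
  letI := secAlg c (regOpen x)
  refine exists_basis_coord (sec x) ?_ ?_
  · intro p q hpq
    refine coordHom_injective c hx (regOpen x) (gen_mem_regOpen x) le_rfl ?_
    exact congrArg (C.presheaf.map (homOfLE (le_refl (regOpen x))).op) hpq
  · exact (isAffineOpen_regOpen c hx).2

omit [IsProper c] [SmoothOfRelativeDimension 1 c] [IsAlgClosed k] in
theorem away_regOpen {x : C.functionField} (hx : x ≠ 0) (hU : IsAffineOpen (regOpen x))
    (hle : regOpen x ⊓ regOpen x⁻¹ ≤ regOpen x) :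
    letI := (C.presheaf.map (homOfLE hle).op).hom.toAlgebra
    IsLocalization.Away (sec x) Γ(C, regOpen x ⊓ regOpen x⁻¹) :=
  hU.isLocalization_of_eq_basicOpen (sec x) (homOfLE hle) (basicOpen_sec hx).symm

/-- Sections agreeing on the overlap of the two charts are constant. -/
theorem exists_eq_const {x : C.functionField}
    (f₀ : Γ(C, regOpen x)) (f₁ : Γ(C, regOpen x⁻¹))
    (h : C.presheaf.map (homOfLE (inf_le_left : regOpen x ⊓ regOpen x⁻¹ ≤ regOpen x)).op f₀ =
      C.presheaf.map (homOfLE (inf_le_right : regOpen x ⊓ regOpen x⁻¹ ≤ regOpen x⁻¹)).op f₁) :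
    ∃ a : k, f₀ = secHom c (regOpen x) a := by
  set y := germGen (regOpen x) (gen_mem_regOpen x) f₀
  have hη : genericPoint C ∈ regOpen x ⊓ regOpen x⁻¹ :=
    ⟨gen_mem_regOpen x, gen_mem_regOpen x⁻¹⟩
  have hy : germGen (regOpen x⁻¹) (gen_mem_regOpen x⁻¹) f₁ = y := by
    have := congrArg (germGen _ hη) h
    rwa [germGen_res, germGen_res, eq_comm] at this
  have htop : (⊤ : C.Opens) ≤ regOpen y := by
    intro Q _
    rcases mem_regOpen_or_inv c x Q with hQ | hQ
    · exact le_regOpen ⟨gen_mem_regOpen x, f₀, rfl⟩ hQ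
    · exact le_regOpen ⟨gen_mem_regOpen x⁻¹, f₁, hy⟩ hQ
  obtain ⟨a, ha⟩ := (bijective_secHom_top c).2 (C.presheaf.map (homOfLE htop).op (sec y))
  refine ⟨a, germGen_injective _ (gen_mem_regOpen x) ?_⟩
  have h2 := congrArg (germGen ⊤ trivial) ha
  rw [germGen_secHom c ⊤ trivial a] at h2
  replace h2 := h2.trans ((germGen_res htop trivial (sec y)).trans (germGen_sec y))
  exact h2.symm.trans (germGen_secHom c _ _ a).symm

omit [IsProper c] [SmoothOfRelativeDimension 1 c] [IsAlgClosed k] [IsIntegral C] in
/-- A rational point in an affine open is a character of its sections. -/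
theorem exists_point {U : C.Opens} (hU : IsAffineOpen U)
    (e : Spec (CommRingCat.of k) ⟶ C) (he : e ≫ c = 𝟙 _)
    (hmem : e (IsLocalRing.closedPoint k) ∈ U) :
    ∃ β : Γ(C, U) →+* k, (∀ a, β (secHom c U a) = a) ∧
      Spec.map (CommRingCat.ofHom β) ≫ hU.fromSpec = e ∧
      ∀ f : Γ(C, U), e (IsLocalRing.closedPoint k) ∈ C.basicOpen f → β f ≠ 0 := by
  have hr : Set.range e ⊆ Set.range hU.fromSpec := by
    rw [hU.range_fromSpec]
    rintro _ ⟨z, rfl⟩
    obtain rfl := Subsingleton.elim z (IsLocalRing.closedPoint k)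
    exact hmem
  set β := Spec.preimage (IsOpenImmersion.lift hU.fromSpec e hr)
  have hβ : Spec.map β ≫ hU.fromSpec = e := by
    rw [Spec.map_preimage, IsOpenImmersion.lift_fac]
  refine ⟨β.hom, fun a => ?_, hβ, fun f hf h0 => ?_⟩
  · have h : CommRingCat.ofHom (secHom c U) ≫ β = 𝟙 _ := by
      refine Spec.map_injective ?_
      rw [Spec.map_comp, ← fromSpec_comp c hU, reassoc_of% hβ, he, Spec.map_id]
    exact congrArg (fun g : CommRingCat.of k ⟶ CommRingCat.of k => g a) h
  · rw [← hβ] at hf
    have hf' : Spec.map β (IsLocalRing.closedPoint k) ∈ hU.fromSpec ⁻¹ᵁ C.basicOpen f := hf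
    rw [hU.fromSpec_preimage_basicOpen] at hf'
    refine hf' ?_
    show β f ∈ IsLocalRing.maximalIdeal k
    rw [show β f = 0 from h0]
    exact Submodule.zero_mem _

omit [IsProper c] [SmoothOfRelativeDimension 1 c] [IsAlgClosed k] [IsIntegral C] in
/-- Two affine opens with affine intersection. -/
theorem isPullback_fromSpec {U V : C.Opens} (hU : IsAffineOpen U) (hV : IsAffineOpen V)
    (hW : IsAffineOpen (U ⊓ V)) :
    IsPullback (Spec.map (C.presheaf.map (homOfLE (inf_le_left : U ⊓ V ≤ U)).op))
      (Spec.map (C.presheaf.map (homOfLE (inf_le_right : U ⊓ V ≤ V)).op))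
      hU.fromSpec hV.fromSpec := by
  refine (isPullback_opens_inf U V).of_iso hW.isoSpec hU.isoSpec hV.isoSpec (Iso.refl _) ?_ ?_ ?_ ?_
  · rw [← cancel_mono hU.fromSpec, Category.assoc, Category.assoc, IsAffineOpen.isoSpec_hom_fromSpec,
      Scheme.homOfLE_ι, IsAffineOpen.map_fromSpec hU hW, IsAffineOpen.isoSpec_hom_fromSpec]
  · rw [← cancel_mono hV.fromSpec, Category.assoc, Category.assoc, IsAffineOpen.isoSpec_hom_fromSpec,
      Scheme.homOfLE_ι, IsAffineOpen.map_fromSpec hV hW, IsAffineOpen.isoSpec_hom_fromSpec]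
  · rw [Iso.refl_hom, Category.comp_id, IsAffineOpen.isoSpec_hom_fromSpec]
  · rw [Iso.refl_hom, Category.comp_id, IsAffineOpen.isoSpec_hom_fromSpec]

end FLTAgent.JacRep.CurveA
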