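import Mathlib
import Fermat.Agent.AbVarTors.Birational.Smooth

/-!
# Commutative algebra of the charts of a curve

* `isPrincipalIdealRing_atPrime`, `isDedekindDomain_of_locally`, `exists_mul_eq`: local rings of
  locally standard smooth algebras of relative dimension one are principal, as they are unramified
  over a polynomial ring in one variable.
* `isDomain_tensorProduct`: extension of an algebraically closed ground field keeps domains.
* `exists_basis_coord`, `finrank_fibre`, `finrank_quotient_away`: bases over a coordinate and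
  the dimensions of its fibres.
* `exists_points`, `isReduced_fibre`: reduced fibres consist of rational points; fibres of etale
  coordinates are reduced.
-/

set_option autoImplicit false
set_option linter.style.haveILetI false

noncomputable section

open scoped TensorProduct Polynomial

universe u

namespace FLTAgent.JacRep.CurveA

section Local

variable {K S : Type u} [Field K] [CommRing S] [Algebra K S]

theorem isPrincipalIdealRing_mvPolynomial_fin_one :
    IsPrincipalIdealRing (MvPolynomial (Fin 1) K) :=
  IsPrincipalIdealRing.of_surjective (MvPolynomial.uniqueAlgEquiv K (Fin 1)).symm.toRingHom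
    (MvPolynomial.uniqueAlgEquiv K (Fin 1)).symm.surjective

/-- The local rings of a standard smooth curve are principal. -/
theorem isPrincipalIdealRing_atPrime_of_standardSmooth [IsDomain S]
    [Algebra.IsStandardSmoothOfRelativeDimension 1 K S] (P : Ideal S) [P.IsPrime] :
    IsPrincipalIdealRing (Localization.AtPrime P) := by
  obtain ⟨φ, hφ⟩ := AbVarTors.exists_etale_mvPolynomial (K := K) (S := S) 1
  letI := φ.toRingHom.toAlgebra
  haveI : Algebra.Etale (MvPolynomial (Fin 1) K) S := hφ
  haveI := isPrincipalIdealRing_mvPolynomial_fin_one (K := K)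
  haveI : IsNoetherianRing S := Algebra.FiniteType.isNoetherianRing (MvPolynomial (Fin 1) K) S
  haveI : IsDomain (Localization.AtPrime P) := inferInstance
  haveI : IsNoetherianRing (Localization.AtPrime P) :=
    IsLocalization.isNoetherianRing P.primeCompl _ inferInstance
  set p := P.under (MvPolynomial (Fin 1) K)
  haveI : P.LiesOver p := ⟨rfl⟩
  letI := Localization.AtPrime.algebraOfLiesOver p P
  have hmax := ((Algebra.isUnramifiedAt_iff_map_eq (MvPolynomial (Fin 1) K) p P).mp
    inferInstance).2
  obtain ⟨g, hg⟩ := (IsPrincipalIdealRing.principal p).principal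
  have h40 : (IsLocalRing.maximalIdeal (Localization.AtPrime P)).IsPrincipal →
      IsPrincipalIdealRing (Localization.AtPrime P) :=
    ((tfae_of_isNoetherianRing_of_isLocalRing_of_isDomain (Localization.AtPrime P)).out 4 0).mp
  refine h40 ⟨⟨algebraMap (MvPolynomial (Fin 1) K) _ g, ?_⟩⟩
  rw [← hmax, hg]
  exact (Ideal.map_span _ _).trans (by rw [Set.image_singleton])

/-- The same for a curve which is standard smooth locally. -/
theorem isPrincipalIdealRing_atPrime [IsDomain S]
    (hS : RingHom.Locally (RingHom.IsStandardSmoothOfRelativeDimension 1) (algebraMap K S))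
    (P : Ideal S) [P.IsPrime] : IsPrincipalIdealRing (Localization.AtPrime P) := by
  obtain ⟨s, hs, hss⟩ := hS
  obtain ⟨t, ht, htP⟩ : ∃ t ∈ s, t ∉ P := by
    by_contra h
    push Not at h
    exact ‹P.IsPrime›.ne_top (top_le_iff.mp (hs ▸ Ideal.span_le.mpr h))
  have ht0 : t ≠ 0 := fun h => htP (h ▸ zero_mem _)
  haveI : IsDomain (Localization.Away t) :=
    IsLocalization.isDomain_localization (powers_le_nonZeroDivisors_of_noZeroDivisors ht0)
  haveI : Algebra.IsStandardSmoothOfRelativeDimension 1 K (Localization.Away t) := by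
    have h := hss t ht
    rw [← IsScalarTower.algebraMap_eq] at h
    exact (RingHom.isStandardSmoothOfRelativeDimension_algebraMap 1).mp h
  have hdisj : Disjoint (Submonoid.powers t : Set S) (P : Set S) := by
    refine Set.disjoint_left.mpr ?_
    rintro _ ⟨i, rfl⟩ hi
    exact htP (‹P.IsPrime›.mem_of_pow_mem i hi)
  set P' := P.map (algebraMap S (Localization.Away t))
  haveI : P'.IsPrime :=
    IsLocalization.isPrime_of_isPrime_disjoint (Submonoid.powers t) _ P ‹_› hdisj
  have hc : P'.comap (algebraMap S (Localization.Away t)) = P :=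
    IsLocalization.under_map_of_isPrime_disjoint (Submonoid.powers t) _ ‹P.IsPrime› hdisj
  haveI := isPrincipalIdealRing_atPrime_of_standardSmooth (K := K) P'
  haveI := IsLocalization.isLocalization_atPrime_localization_atPrime (Submonoid.powers t) P'
  haveI : IsLocalization P.primeCompl (Localization.AtPrime P') := by
    have h := IsLocalization.isLocalization_atPrime_localization_atPrime (Submonoid.powers t) P'
    simp only [IsLocalization.AtPrime, hc] at h
    exact h
  exact IsPrincipalIdealRing.of_surjective
    (IsLocalization.algEquiv P.primeCompl (Localization.AtPrime P')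
      (Localization.AtPrime P)).toRingEquiv.toRingHom
    (IsLocalization.algEquiv P.primeCompl (Localization.AtPrime P')
      (Localization.AtPrime P)).surjective

/-- A domain of finite type which is a smooth curve is Dedekind. -/
theorem isDedekindDomain_of_locally [IsDomain S] [Algebra.FiniteType K S]
    (hS : RingHom.Locally (RingHom.IsStandardSmoothOfRelativeDimension 1) (algebraMap K S)) :
    IsDedekindDomain S := by
  haveI : IsNoetherianRing S := Algebra.FiniteType.isNoetherianRing K S
  haveI : IsDedekindDomainDvr S :=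
    { is_dvr_at_nonzero_prime := fun P hP hPp => by
        haveI := hPp
        haveI := isPrincipalIdealRing_atPrime hS P
        exact ⟨fun h => IsLocalization.AtPrime.not_isField S hP (Localization.AtPrime P)
          (IsLocalRing.isField_iff_maximalIdeal_eq.mpr h)⟩ }
  exact IsDedekindDomainDvr.isDedekindDomain S

/-- Near any prime one of two elements divides the other. -/
theorem exists_mul_eq [IsDomain S]
    (hS : RingHom.Locally (RingHom.IsStandardSmoothOfRelativeDimension 1) (algebraMap K S))
    (P : Ideal S) [P.IsPrime] (a b : S) :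
    ∃ d ∉ P, ∃ e, a * d = b * e ∨ b * d = a * e := by
  haveI := isPrincipalIdealRing_atPrime hS P
  set L := Localization.AtPrime P
  haveI : ValuationRing L := inferInstance
  have key : ∀ a b : S, algebraMap S L b ∣ algebraMap S L a → ∃ d ∉ P, ∃ e, a * d = b * e := by
    rintro a b ⟨z, hz⟩
    obtain ⟨e, ⟨d, hd⟩, rfl⟩ := IsLocalization.exists_mk'_eq P.primeCompl z
    rw [IsLocalization.mul_mk'_eq_mk'_of_mul, IsLocalization.eq_mk'_iff_mul_eq] at hz
    rw [← map_mul] at hz
    exact ⟨d, hd, e, IsLocalization.injective L P.primeCompl_le_nonZeroDivisors hz⟩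
  rcases ValuationRing.dvd_total (algebraMap S L a) (algebraMap S L b) with h | h
  · obtain ⟨d, hd, e, he⟩ := key b a h
    exact ⟨d, hd, e, Or.inr he⟩
  · obtain ⟨d, hd, e, he⟩ := key a b h
    exact ⟨d, hd, e, Or.inl he⟩

end Local

/-- Over an algebraically closed field a finitely generated domain stays a domain. -/
theorem isDomain_tensorProduct {k A L : Type u} [Field k] [IsAlgClosed k] [CommRing A] [IsDomain A]
    [Algebra k A] [Algebra.FiniteType k A] [Field L] [Algebra k L] : IsDomain (L ⊗[k] A) := by
  classical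
  suffices h : IsDomain (A ⊗[k] L) by
    exact (Algebra.TensorProduct.comm k L A).toRingEquiv.toMulEquiv.isDomain _
  let b := Module.Free.chooseBasis k L
  let B := Algebra.TensorProduct.basis A b
  haveI : Nontrivial (A ⊗[k] L) := B.repr.toEquiv.nontrivial
  haveI : IsJacobsonRing A := isJacobsonRing_of_finiteType (A := k)
  suffices h : NoZeroDivisors (A ⊗[k] L) by exact NoZeroDivisors.to_isDomain _
  refine ⟨fun {z w} hzw => ?_⟩
  by_contra hne
  push Not at hne
  obtain ⟨i, hi⟩ : ∃ i, B.repr z i ≠ 0 := by
    by_contra h0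
    push Not at h0
    exact hne.1 (B.repr.injective (by ext i; simpa using h0 i))
  obtain ⟨j, hj⟩ : ∃ j, B.repr w j ≠ 0 := by
    by_contra h0
    push Not at h0
    exact hne.2 (B.repr.injective (by ext i; simpa using h0 i))
  refine mul_ne_zero hi hj ?_
  have hbot : (⊥ : Ideal A).jacobson = ⊥ :=
    IsJacobsonRing.out ‹_› ((Ideal.isPrime_bot (α := A)).isRadical)
  rw [← Ideal.mem_bot, ← hbot, Ideal.jacobson, Ideal.mem_sInf]
  rintro m ⟨-, hm⟩
  haveI := hm
  letI := Ideal.Quotient.field m
  haveI : Module.Finite k (A ⧸ m) := finite_of_finite_type_of_isJacobsonRing k (A ⧸ m)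
  let e : A →ₐ[k] k := (AlgEquiv.ofBijective (Algebra.ofId k (A ⧸ m))
    (IsAlgClosed.algebraMap_bijective_of_isIntegral (k := k) (K := A ⧸ m))).symm.toAlgHom.comp
      (Ideal.Quotient.mkₐ k m)
  have hker : ∀ a, e a = 0 → a ∈ m := fun a ha => by
    have h2 := (AlgEquiv.ofBijective (Algebra.ofId k (A ⧸ m))
      (IsAlgClosed.algebraMap_bijective_of_isIntegral (k := k) (K := A ⧸ m))).symm.map_eq_zero_iff.mp
        ha
    exact Ideal.Quotient.eq_zero_iff_mem.mp h2
  let Φ : A ⊗[k] L →ₐ[k] L :=
    (Algebra.TensorProduct.lid k L).toAlgHom.comp (Algebra.TensorProduct.map e (AlgHom.id k L))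
  have hΦ : ∀ (x : A ⊗[k] L) (l), b.repr (Φ x) l = e (B.repr x l) := by
    intro x l
    induction x using TensorProduct.induction_on with
    | zero => simp
    | add x y hx hy => simp only [map_add, Finsupp.add_apply, hx, hy]
    | tmul a y =>
      simp [Φ, B, Algebra.TensorProduct.basis_repr_tmul]
  have h0 : Φ z * Φ w = 0 := by rw [← map_mul, hzw, map_zero]
  rcases mul_eq_zero.mp h0 with h | h
  · exact Ideal.mul_mem_right _ _ (hker _ (by rw [← hΦ, h]; simp))
  · exact Ideal.mul_mem_left _ _ (hker _ (by rw [← hΦ, h]; simp))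

section Coordinate

variable {k : Type u} [Field k] {B : Type u} [CommRing B] [Algebra k B]

/-- A domain finite over a transcendental coordinate is free. -/
theorem exists_basis_coord [IsDomain B] (x : B)
    (hx : Function.Injective (Polynomial.aeval (R := k) x))
    (hfin : (Polynomial.aeval (R := k) x).toRingHom.Finite) :
    ∃ (n : ℕ) (b : Fin n → B),
      Function.Bijective fun c : Fin n → k[X] => ∑ i, Polynomial.aeval x (c i) * b i := by
  letI := (Polynomial.aeval (R := k) x).toRingHom.toAlgebra
  haveI : Module.Finite k[X] B := hfin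
  haveI : FaithfulSMul k[X] B := (faithfulSMul_iff_algebraMap_injective _ _).mpr hx
  haveI : Module.IsTorsionFree k[X] B := inferInstance
  let b := Module.finBasis k[X] B
  refine ⟨_, b, ?_⟩
  convert b.equivFun.symm.bijective using 1
  funext c
  rw [Module.Basis.equivFun_symm_apply]
  exact Finset.sum_congr rfl fun i _ => (Algebra.smul_def (c i) (b i)).symm

/-- The fibre over `a` has the rank as its dimension. -/
theorem finrank_fibre {n : ℕ} {x : B} {b : Fin n → B}
    (hb : Function.Bijective fun c : Fin n → k[X] => ∑ i, Polynomial.aeval x (c i) * b i) (a : k) :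
    Module.Finite k (B ⧸ Ideal.span {x - algebraMap k B a}) ∧
    Module.finrank k (B ⧸ Ideal.span {x - algebraMap k B a}) = n := by
  set J := Ideal.span {x - algebraMap k B a}
  let g : (Fin n → k) →ₗ[k] B ⧸ J :=
    { toFun := fun v => Ideal.Quotient.mk J (∑ i, algebraMap k B (v i) * b i)
      map_add' := fun v w => by
        rw [← map_add, ← Finset.sum_add_distrib]
        simp [add_mul]
      map_smul' := fun r v => by
        rw [RingHom.id_apply, ← Ideal.Quotient.mkₐ_eq_mk k, ← map_smul, Finset.smul_sum]
        exact congrArg _ (Finset.sum_congr rfl fun i _ => by simp [Algebra.smul_def, mul_assoc]) }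
  have hev : ∀ c : k[X], Ideal.Quotient.mk J (Polynomial.aeval x c) =
      Ideal.Quotient.mk J (algebraMap k B (c.eval a)) := by
    intro c
    rw [Ideal.Quotient.mk_eq_mk_iff_sub_mem, Ideal.mem_span_singleton]
    have h := Polynomial.sub_dvd_eval_sub x (algebraMap k B a) (c.map (algebraMap k B))
    rwa [Polynomial.eval_map, Polynomial.eval_map, ← Polynomial.aeval_def, Polynomial.eval₂_at_apply]
      at h
  have hg : Function.Bijective g := by
    refine ⟨(injective_iff_map_eq_zero g).mpr fun v hv => ?_, fun z => ?_⟩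
    · obtain ⟨q, hq⟩ := Ideal.mem_span_singleton'.mp (Ideal.Quotient.eq_zero_iff_mem.mp hv)
      obtain ⟨c, rfl⟩ := hb.2 q
      have h : (fun i => (Polynomial.X - Polynomial.C a) * c i) = fun i => Polynomial.C (v i) := by
        refine hb.1 ?_
        show ∑ i, _ = ∑ i, _
        simp only [map_mul, map_sub, Polynomial.aeval_X, Polynomial.aeval_C]
        rw [← hq, Finset.sum_mul]
        exact Finset.sum_congr rfl fun i _ => by ring
      funext i
      have := congrArg (Polynomial.eval a) (congrFun h i)
      simpa using this.symm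
    · obtain ⟨z, rfl⟩ := Ideal.Quotient.mk_surjective z
      obtain ⟨c, rfl⟩ := hb.2 z
      refine ⟨fun i => (c i).eval a, ?_⟩
      show Ideal.Quotient.mk J _ = Ideal.Quotient.mk J _
      rw [map_sum, map_sum]
      exact Finset.sum_congr rfl fun i _ => by rw [map_mul, map_mul, hev]
  let e := LinearEquiv.ofBijective g hg
  exact ⟨Module.Finite.equiv e, by rw [← e.finrank_eq, Module.finrank_fin_fun]⟩

/-- Removing the fibre over `0` does not change the fibre over `1`. -/
theorem finrank_quotient_away {A : Type u} [CommRing A] [Algebra k A] (f : B →ₐ[k] A) (x : B)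
    (hloc : letI := f.toRingHom.toAlgebra; IsLocalization.Away x A) :
    Module.finrank k (B ⧸ Ideal.span {x - 1}) = Module.finrank k (A ⧸ Ideal.span {f x - 1}) := by
  letI := f.toRingHom.toAlgebra
  haveI := hloc
  set I := Ideal.span {x - 1}
  set J := Ideal.span {f x - 1}
  have hIJ : I ≤ J.comap f := by
    rw [Ideal.span_le, Set.singleton_subset_iff, SetLike.mem_coe, Ideal.mem_comap, map_sub, map_one]
    exact Ideal.mem_span_singleton_self _
  let g : (B ⧸ I) →ₐ[k] A ⧸ J := Ideal.Quotient.liftₐ I ((Ideal.Quotient.mkₐ k J).comp f)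
    fun b hb => Ideal.Quotient.eq_zero_iff_mem.mpr (hIJ hb)
  have hxI : ∀ m : ℕ, Ideal.Quotient.mk I (x ^ m) = 1 := fun m => by
    rw [map_pow, show Ideal.Quotient.mk I x = 1 from by
      rw [← map_one (Ideal.Quotient.mk I), Ideal.Quotient.mk_eq_mk_iff_sub_mem]
      exact Ideal.mem_span_singleton_self _, one_pow]
  refine (LinearEquiv.ofBijective g.toLinearMap ⟨?_, ?_⟩).finrank_eq
  · refine (injective_iff_map_eq_zero g).mpr fun z hz => ?_
    obtain ⟨b, rfl⟩ := Ideal.Quotient.mk_surjective z
    obtain ⟨a, ha⟩ := Ideal.mem_span_singleton'.mp (Ideal.Quotient.eq_zero_iff_mem.mp hz)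
    obtain ⟨m, e, he⟩ := IsLocalization.Away.surj x a
    have h : algebraMap B A (x ^ m * b) = algebraMap B A (e * (x - 1)) := by
      rw [map_mul, map_mul, map_pow, map_sub, map_one, ← he]
      change algebraMap B A x ^ m * f b = _
      have ha' : a * (algebraMap B A x - 1) = f b := ha
      rw [← ha']
      ring
    obtain ⟨m', hm'⟩ := IsLocalization.Away.exists_of_eq x h
    rw [Ideal.Quotient.eq_zero_iff_mem]
    have h2 := congrArg (Ideal.Quotient.mk I) hm'
    rw [map_mul, map_mul, map_mul, map_mul, hxI, hxI, one_mul, one_mul, one_mul,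
      Ideal.Quotient.eq_zero_iff_mem.mpr (Ideal.mem_span_singleton_self (x - 1)), mul_zero] at h2
    exact Ideal.Quotient.eq_zero_iff_mem.mp h2
  · intro z
    obtain ⟨a, rfl⟩ := Ideal.Quotient.mk_surjective z
    obtain ⟨m, e, he⟩ := IsLocalization.Away.surj x a
    refine ⟨Ideal.Quotient.mk I e, ?_⟩
    show Ideal.Quotient.mk J (algebraMap B A e) = Ideal.Quotient.mk J a
    rw [← he, map_mul, map_pow, show Ideal.Quotient.mk J (algebraMap B A x) = 1 from by
      rw [← map_one (Ideal.Quotient.mk J), Ideal.Quotient.mk_eq_mk_iff_sub_mem]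
      exact Ideal.mem_span_singleton_self _, one_pow, mul_one]

variable [IsAlgClosed k]

/-- A reduced fibre consists of `n` points. -/
theorem exists_points {n : ℕ} {x : B} {b : Fin n → B}
    (hb : Function.Bijective fun c : Fin n → k[X] => ∑ i, Polynomial.aeval x (c i) * b i)
    (hred : IsReduced (B ⧸ Ideal.span {x})) :
    ∃ pt : Fin n → B →ₐ[k] k, (∀ i, pt i x = 0) ∧
      (∀ v : Fin n → k, ∃ a, ∀ i, pt i a = v i) ∧ ∀ a, (∀ i, pt i a = 0) → x ∣ a := by
  obtain ⟨hfin, hrank⟩ : Module.Finite k (B ⧸ Ideal.span {x}) ∧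
      Module.finrank k (B ⧸ Ideal.span {x}) = n := by
    have h := finrank_fibre hb 0
    rwa [show x - algebraMap k B 0 = x by rw [map_zero, sub_zero]] at h
  haveI := hfin
  haveI := hred
  set Q := B ⧸ Ideal.span {x}
  haveI : IsArtinianRing Q := IsArtinianRing.of_finite k Q
  haveI : Fintype (MaximalSpectrum Q) := Fintype.ofFinite _
  have hpt : ∀ I : MaximalSpectrum Q, Function.Bijective (algebraMap k (Q ⧸ I.asIdeal)) := fun I => by
    haveI := I.isMaximal
    haveI : IsDomain (Q ⧸ I.asIdeal) := Ideal.Quotient.isDomain _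
    exact IsAlgClosed.algebraMap_bijective_of_isIntegral
  let e : Q ≃ₐ[k] MaximalSpectrum Q → k :=
    ((IsArtinianRing.equivPi Q).restrictScalars k).trans
      (AlgEquiv.piCongrRight fun I => (AlgEquiv.ofBijective (Algebra.ofId k _) (hpt I)).symm)
  have hcard : Fintype.card (MaximalSpectrum Q) = n := by
    rw [← hrank, e.toLinearEquiv.finrank_eq, Module.finrank_pi]
  let σ : Fin n ≃ MaximalSpectrum Q := (Fintype.equivFinOfCardEq hcard).symm
  refine ⟨fun i => ((Pi.evalAlgHom k (fun _ => k) (σ i)).comp e.toAlgHom).comp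
    (Ideal.Quotient.mkₐ k _), fun i => ?_, fun v => ?_, fun a ha => ?_⟩
  · show e (Ideal.Quotient.mk _ x) (σ i) = 0
    rw [Ideal.Quotient.eq_zero_iff_mem.mpr (Ideal.mem_span_singleton_self x), map_zero,
      Pi.zero_apply]
  · obtain ⟨a, ha⟩ := Ideal.Quotient.mk_surjective (e.symm (fun I => v (σ.symm I)))
    refine ⟨a, fun i => ?_⟩
    show e (Ideal.Quotient.mk _ a) (σ i) = v i
    rw [ha, e.apply_symm_apply, σ.symm_apply_apply]
  · rw [← Ideal.mem_span_singleton, ← Ideal.Quotient.eq_zero_iff_mem]
    refine e.injective (funext fun I => ?_)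
    rw [map_zero, Pi.zero_apply, ← σ.apply_symm_apply I]
    exact ha (σ.symm I)

end Coordinate

/-- The fibres of an etale coordinate are reduced. -/
theorem isReduced_fibre {k S : Type u} [Field k] [CommRing S] [Algebra k S]
    [Algebra.FiniteType k S] (φ : MvPolynomial (Fin 1) k →ₐ[k] S) (hφ : φ.toRingHom.Etale) (a : k) :
    IsReduced (S ⧸ Ideal.span {φ (MvPolynomial.X 0) - algebraMap k S a}) := by
  set Q := S ⧸ Ideal.span {φ (MvPolynomial.X 0) - algebraMap k S a}
  letI := φ.toRingHom.toAlgebra
  haveI : Algebra.Etale (MvPolynomial (Fin 1) k) S := hφ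
  letI : Algebra (MvPolynomial (Fin 1) k) k := (MvPolynomial.aeval fun _ => a).toRingHom.toAlgebra
  have h : (Ideal.Quotient.mkₐ k _).comp φ =
      (Algebra.ofId k Q).comp (MvPolynomial.aeval fun _ => a) := by
    refine MvPolynomial.algHom_ext fun i => ?_
    obtain rfl := Subsingleton.elim i 0
    simp only [AlgHom.comp_apply, MvPolynomial.aeval_X, Ideal.Quotient.mkₐ_eq_mk,
      Algebra.ofId_apply]
    rw [IsScalarTower.algebraMap_apply k S Q, Ideal.Quotient.algebraMap_eq,
      Ideal.Quotient.mk_eq_mk_iff_sub_mem]
    exact Ideal.mem_span_singleton_self _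
  haveI : IsScalarTower (MvPolynomial (Fin 1) k) k Q :=
    IsScalarTower.of_algebraMap_eq fun r => DFunLike.congr_fun h r
  haveI : Algebra.FormallyUnramified (MvPolynomial (Fin 1) k) Q :=
    Algebra.FormallyUnramified.comp _ S _
  haveI : Algebra.FormallyUnramified k Q :=
    Algebra.FormallyUnramified.of_restrictScalars (MvPolynomial (Fin 1) k) k Q
  exact Algebra.FormallyUnramified.isReduced_of_field k Q

end FLTAgent.JacRep.CurveA
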