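import Mathlib
import Fermat.Agent.JacRep.CurveA.Algebra

/-!
# Functions on a smooth proper integral curve

For `x` in the function field, `regOpen x` is the open set where it is regular and `sec x` its
section there.
* `basicOpen_sec`: `sec x` is invertible exactly where also the inverse of `x` is regular.
* `finite_of_isClosed`, `mem_regOpen_or_inv`: closed sets missing the generic point are finite; at
  each point `x` or its inverse is regular.
* `universallyClosed_toLine`, `isAffineOpen_regOpen`: for nonconstant `x` the map to the affine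
  line is proper (valuative criterion) and quasi-finite, so `regOpen x` is affine and finite
  over `k[X]`.
* `bijective_secHom_top`: global functions are constant.
-/

set_option autoImplicit false
set_option linter.style.haveILetI false
set_option linter.unusedSectionVars false

noncomputable section

open CategoryTheory CategoryTheory.Limits AlgebraicGeometry TopologicalSpace
open scoped Polynomial

universe u

namespace FLTAgent.JacRep.CurveA

variable {k : Type u} [Field k] {C : Scheme.{u}} (c : C ⟶ Spec (CommRingCat.of k))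

theorem le_preTop (U : C.Opens) : U ≤ c ⁻¹ᵁ ⊤ := le_top

/-- Constants as sections. -/
def secHom (U : C.Opens) : k →+* Γ(C, U) :=
  ((Scheme.ΓSpecIso (CommRingCat.of k)).inv ≫ c.appLE ⊤ U (le_preTop c U)).hom

/-- The algebra of sections. -/
@[reducible] def secAlg (U : C.Opens) : Algebra k Γ(C, U) := (secHom c U).toAlgebra

theorem res_secHom {U V : C.Opens} (h : U ≤ V) (a : k) :
    C.presheaf.map (homOfLE h).op (secHom c V a) = secHom c U a := by
  show ((Scheme.ΓSpecIso (CommRingCat.of k)).inv ≫ c.appLE ⊤ V (le_preTop c V) ≫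
    C.presheaf.map (homOfLE h).op).hom a = _
  rw [Scheme.Hom.appLE_map]
  rfl

/-- The restriction of sections as an algebra map. -/
def resAlg {U V : C.Opens} (h : U ≤ V) :
    letI := secAlg c U; letI := secAlg c V; Γ(C, V) →ₐ[k] Γ(C, U) :=
  letI := secAlg c U; letI := secAlg c V
  { (C.presheaf.map (homOfLE h).op).hom with commutes' := res_secHom c h }

theorem toSpecΓ_secHom (U : C.Opens) :
    U.toSpecΓ ≫ Spec.map (CommRingCat.ofHom (secHom c U)) = U.ι ≫ c := by
  rw [secHom, CommRingCat.ofHom_hom, Spec.map_comp, ← Category.assoc,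
    Scheme.Opens.toSpecΓ_SpecMap_appLE, Category.assoc, Scheme.Opens.toSpecΓ_top, Category.assoc,
    toSpecΓ_SpecMap_ΓSpecIso_inv, Category.comp_id, Scheme.Hom.resLE_comp_ι]

theorem fromSpec_comp {U : C.Opens} (hU : IsAffineOpen U) :
    hU.fromSpec ≫ c = Spec.map (CommRingCat.ofHom (secHom c U)) := by
  rw [IsAffineOpen.fromSpec, Category.assoc, ← toSpecΓ_secHom, IsAffineOpen.isoSpec_inv_toSpecΓ_assoc]

variable [IsIntegral C]

theorem gen_mem {U : C.Opens} {P : C} (h : P ∈ U) : genericPoint C ∈ U :=
  ((genericPoint_spec C).specializes trivial).mem_open U.isOpen h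

/-- The value at the generic point. -/
abbrev germGen (U : C.Opens) (h : genericPoint C ∈ U) : Γ(C, U) ⟶ C.functionField :=
  C.presheaf.germ U (genericPoint C) h

theorem germGen_res {U V : C.Opens} (h : U ≤ V) (hU : genericPoint C ∈ U) (s : Γ(C, V)) :
    germGen U hU (C.presheaf.map (homOfLE h).op s) = germGen V (h hU) s :=
  C.presheaf.germ_res_apply (homOfLE h) (genericPoint C) hU s

theorem germGen_injective (U : C.Opens) (h : genericPoint C ∈ U) :
    Function.Injective (germGen U h) :=
  germ_injective_of_isIntegral _ _ h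

/-- Constants in the function field. -/
def const : k →+* C.functionField :=
  (germGen ⊤ trivial).hom.comp (secHom c ⊤)

theorem germGen_secHom (U : C.Opens) (h : genericPoint C ∈ U) (a : k) :
    germGen U h (secHom c U a) = const c a := by
  rw [← res_secHom c (le_top : U ≤ ⊤), germGen_res]
  rfl

/-- `x` is given by a section on `U`. -/
def IsRegOn (x : C.functionField) (U : C.Opens) : Prop :=
  ∃ (h : genericPoint C ∈ U) (s : Γ(C, U)), germGen U h s = x

/-- The open set where `x` is regular. -/
def regOpen (x : C.functionField) : C.Opens := ⨆ U : {U : C.Opens // IsRegOn x U}, U.1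

theorem le_regOpen {x : C.functionField} {U : C.Opens} (h : IsRegOn x U) : U ≤ regOpen x :=
  le_iSup (fun U : {U : C.Opens // IsRegOn x U} => U.1) ⟨U, h⟩

theorem gen_mem_regOpen (x : C.functionField) : genericPoint C ∈ regOpen x := by
  obtain ⟨U, hU, s, hs⟩ := C.presheaf.exists_germ_eq x
  exact le_regOpen ⟨hU, s, hs⟩ hU

theorem isRegOn_regOpen (x : C.functionField) : IsRegOn x (regOpen x) := by
  let ι := {U : C.Opens // IsRegOn x U}
  let U : ι → C.Opens := fun i => i.1
  choose hη s hs using fun i : ι => i.2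
  obtain ⟨t, ht, -⟩ := C.sheaf.existsUnique_gluing' U (regOpen x)
    (fun i => homOfLE (le_regOpen i.2)) le_rfl s (fun i j => by
      refine germGen_injective (U i ⊓ U j) (show genericPoint C ∈ (U i ⊓ U j : C.Opens) from ⟨hη i, hη j⟩) ?_
      exact (germGen_res inf_le_left _ (s i)).trans ((hs i).trans
        ((germGen_res inf_le_right _ (s j)).trans (hs j)).symm))
  refine ⟨gen_mem_regOpen x, t, ?_⟩
  obtain ⟨V, hV, r, hr⟩ := C.presheaf.exists_germ_eq x
  have h : C.presheaf.map (homOfLE (le_regOpen ⟨hV, r, hr⟩)).op t = s ⟨V, hV, r, hr⟩ :=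
    ht ⟨V, hV, r, hr⟩
  rw [← germGen_res (le_regOpen ⟨hV, r, hr⟩) hV t, h]
  exact hs ⟨V, hV, r, hr⟩

/-- The section of a function on its regular locus. -/
def sec (x : C.functionField) : Γ(C, regOpen x) := (isRegOn_regOpen x).2.choose

theorem germGen_sec (x : C.functionField) :
    germGen (regOpen x) (gen_mem_regOpen x) (sec x) = x :=
  (isRegOn_regOpen x).2.choose_spec

theorem eq_sec {x : C.functionField} {U : C.Opens} (h : genericPoint C ∈ U) {s : Γ(C, U)}
    (hs : germGen U h s = x) (hle : U ≤ regOpen x) :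
    C.presheaf.map (homOfLE hle).op (sec x) = s :=
  germGen_injective U h (by rw [germGen_res, germGen_sec, hs])

theorem mem_regOpen_mul {x y : C.functionField} {P : C} (hx : P ∈ regOpen x) (hy : P ∈ regOpen y) :
    P ∈ regOpen (x * y) :=
  have hη : genericPoint C ∈ regOpen x ⊓ regOpen y := ⟨gen_mem_regOpen x, gen_mem_regOpen y⟩
  le_regOpen (U := regOpen x ⊓ regOpen y) ⟨hη,
    C.presheaf.map (homOfLE inf_le_left).op (sec x) * C.presheaf.map (homOfLE inf_le_right).op (sec y),
    by rw [map_mul, germGen_res, germGen_res, germGen_sec, germGen_sec]⟩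
    (show P ∈ regOpen x ⊓ regOpen y from ⟨hx, hy⟩)

theorem exists_inv_res {V : C.Opens} (f : Γ(C, V)) :
    ∃ v : Γ(C, C.basicOpen f), C.presheaf.map (homOfLE (C.basicOpen_le f)).op f * v = 1 :=
  (RingedSpace.isUnit_res_basicOpen C.toRingedSpace f).exists_right_inv

theorem mem_regOpen_inv {x : C.functionField} {P : C} (hP : P ∈ regOpen x)
    (h : P ∈ C.basicOpen (sec x)) : P ∈ regOpen x⁻¹ := by
  obtain ⟨v, hv⟩ := exists_inv_res (sec x)
  refine le_regOpen ⟨gen_mem h, v, ?_⟩ h
  refine (inv_eq_of_mul_eq_one_right ?_).symm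
  have e := congrArg (germGen (C.basicOpen (sec x)) (gen_mem h)) hv
  rw [map_one, map_mul] at e
  refine Eq.trans (congrArg (· * _) ?_) e
  exact ((germGen_res (C.basicOpen_le (sec x)) (gen_mem h) (sec x)).trans (germGen_sec x)).symm

/-- A function is invertible where it and its inverse are regular. -/
theorem basicOpen_sec {x : C.functionField} (hx : x ≠ 0) :
    C.basicOpen (sec x) = regOpen x ⊓ regOpen x⁻¹ := by
  refine le_antisymm (fun P hP => ⟨C.basicOpen_le _ hP, mem_regOpen_inv (C.basicOpen_le _ hP) hP⟩) ?_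
  intro P ⟨h1, h2⟩
  rw [Scheme.mem_basicOpen C (sec x) P h1]
  refine IsUnit.of_mul_eq_one (C.presheaf.germ _ P h2 (sec x⁻¹)) ?_
  have hη : genericPoint C ∈ regOpen x ⊓ regOpen x⁻¹ := ⟨gen_mem_regOpen x, gen_mem_regOpen _⟩
  have h : C.presheaf.map (homOfLE (inf_le_left : regOpen x ⊓ regOpen x⁻¹ ≤ _)).op (sec x) *
      C.presheaf.map (homOfLE (inf_le_right : regOpen x ⊓ regOpen x⁻¹ ≤ _)).op (sec x⁻¹) = 1 :=
    germGen_injective _ hη (by
      rw [map_mul, germGen_res, germGen_res, germGen_sec, germGen_sec, map_one, mul_inv_cancel₀ hx])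
  have e := congrArg (C.presheaf.germ _ P (show P ∈ regOpen x ⊓ regOpen x⁻¹ from ⟨h1, h2⟩)) h
  rwa [map_mul, map_one, C.presheaf.germ_res_apply, C.presheaf.germ_res_apply] at e

variable [IsAlgClosed k] [IsProper c] [SmoothOfRelativeDimension 1 c]

theorem locally_secHom {U : C.Opens} (hU : IsAffineOpen U) :
    RingHom.Locally (RingHom.IsStandardSmoothOfRelativeDimension 1) (secHom c U) := by
  have h := HasRingHomProperty.appLE (P := @SmoothOfRelativeDimension 1) c inferInstance
    ⟨⊤, isAffineOpen_top _⟩ ⟨U, hU⟩ (le_preTop c U)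
  exact (RingHom.locally_respectsIso RingHom.isStandardSmoothOfRelativeDimension_respectsIso).2
    _ (Scheme.ΓSpecIso (CommRingCat.of k)).symm.commRingCatIsoToRingEquiv h

theorem finiteType_secHom {U : C.Opens} (hU : IsAffineOpen U) : (secHom c U).FiniteType := by
  have h := HasRingHomProperty.appLE (P := @LocallyOfFiniteType) c inferInstance
    ⟨⊤, isAffineOpen_top _⟩ ⟨U, hU⟩ (le_preTop c U)
  exact RingHom.finiteType_respectsIso.2
    _ (Scheme.ΓSpecIso (CommRingCat.of k)).symm.commRingCatIsoToRingEquiv h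

theorem isDomain_sections {U : C.Opens} {P : C} (h : P ∈ U) : IsDomain Γ(C, U) :=
  haveI : Nonempty U := ⟨⟨P, h⟩⟩
  inferInstance

/-- The prime of the generic point in an affine open is zero. -/
theorem primeIdealOf_gen {U : C.Opens} (hU : IsAffineOpen U) (h : genericPoint C ∈ U) :
    (hU.primeIdealOf ⟨genericPoint C, h⟩).asIdeal = ⊥ := by
  haveI : Nonempty U := ⟨⟨_, h⟩⟩
  rw [hU.primeIdealOf_genericPoint, genericPoint_eq_bot_of_affine]
  rfl

include c in
/-- Points other than the generic point have no proper specialisations. -/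
theorem eq_of_specializes {P Q : C} (hP : P ≠ genericPoint C) (h : P ⤳ Q) : Q = P := by
  obtain ⟨V, hV, hQV, -⟩ := exists_isAffineOpen_mem_and_subset (x := Q) (U := ⊤) trivial
  have hPV : P ∈ V := h.mem_open V.isOpen hQV
  haveI := isDomain_sections hPV
  letI := secAlg c V
  haveI : Algebra.FiniteType k Γ(C, V) := finiteType_secHom c hV
  haveI := isDedekindDomain_of_locally (K := k) (locally_secHom c hV)
  set p := hV.primeIdealOf ⟨P, hPV⟩
  set q := hV.primeIdealOf ⟨Q, hQV⟩
  have hp : p.asIdeal ≠ ⊥ := by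
    intro h0
    refine hP ?_
    have e : p = hV.primeIdealOf ⟨genericPoint C, gen_mem hPV⟩ :=
      PrimeSpectrum.ext (h0.trans (primeIdealOf_gen hV _).symm)
    exact (hV.fromSpec_primeIdealOf ⟨P, hPV⟩).symm.trans
      ((congrArg hV.fromSpec e).trans (hV.fromSpec_primeIdealOf _))
  haveI := Ideal.IsPrime.isMaximal p.isPrime hp
  have hpq : p ⤳ q := by
    refine hV.fromSpec.isOpenEmbedding.isInducing.specializes_iff.mp ?_
    convert h using 1
    · exact hV.fromSpec_primeIdealOf _
    · exact hV.fromSpec_primeIdealOf _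
  have hle : p.asIdeal ≤ q.asIdeal := (PrimeSpectrum.le_iff_specializes p q).mpr hpq
  have e : p = q := PrimeSpectrum.ext (Ideal.IsMaximal.eq_of_le inferInstance q.isPrime.ne_top hle)
  exact (hV.fromSpec_primeIdealOf ⟨Q, hQV⟩).symm.trans
    ((congrArg hV.fromSpec e).symm.trans (hV.fromSpec_primeIdealOf ⟨P, hPV⟩))

include c in
theorem isClosed_singleton' {P : C} (hP : P ≠ genericPoint C) : IsClosed ({P} : Set C) := by
  refine isClosed_of_closure_subset fun Q hQ => ?_
  exact eq_of_specializes c hP (specializes_iff_mem_closure.mpr hQ)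

include c in
theorem noetherianSpace : NoetherianSpace C := by
  haveI : IsLocallyNoetherian C := LocallyOfFiniteType.isLocallyNoetherian c
  haveI : CompactSpace C := QuasiCompact.compactSpace_of_compactSpace c
  haveI : IsNoetherian C := {}
  infer_instance

include c in
/-- A closed set avoiding the generic point is finite. -/
theorem finite_of_isClosed {Z : Set C} (hZ : IsClosed Z) (hη : genericPoint C ∉ Z) : Z.Finite := by
  haveI := noetherianSpace c
  obtain ⟨S, hS, hcl, hirr, hZS⟩ := NoetherianSpace.exists_finite_set_isClosed_irreducible hZ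
  rw [hZS]
  refine hS.sUnion fun t ht => ?_
  obtain ⟨g, hg⟩ := QuasiSober.sober (hirr t ht) (hcl t ht)
  have hgt : g ∈ t := hg.mem
  have hne : g ≠ genericPoint C := fun e => hη (hZS ▸ Set.mem_sUnion_of_mem (e ▸ hgt) ht)
  rw [← hg, (isClosed_singleton' c hne).closure_eq]
  exact Set.finite_singleton g

include c in
/-- Of a function and its inverse one is regular at each point. -/
theorem mem_regOpen_or_inv (x : C.functionField) (P : C) :
    P ∈ regOpen x ∨ P ∈ regOpen x⁻¹ := by
  obtain ⟨V, hV, hPV, -⟩ := exists_isAffineOpen_mem_and_subset (x := P) (U := ⊤) trivial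
  haveI := isDomain_sections hPV
  haveI : Nonempty V := ⟨⟨P, hPV⟩⟩
  haveI := functionField_isFractionRing_of_isAffineOpen C V hV
  letI := secAlg c V
  obtain ⟨a, ⟨b, hb⟩, rfl⟩ := IsLocalization.exists_mk'_eq (nonZeroDivisors Γ(C, V)) x
  rcases eq_or_ne a 0 with rfl | ha
  · left
    exact le_regOpen ⟨gen_mem hPV, 0, by rw [map_zero, IsLocalization.mk'_zero]⟩ hPV
  obtain ⟨d, hd, e, he⟩ :=
    exists_mul_eq (K := k) (locally_secHom c hV) (hV.primeIdealOf ⟨P, hPV⟩).asIdeal a b
  have hPd : P ∈ C.basicOpen d := by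
    rw [show P = hV.fromSpec (hV.primeIdealOf ⟨P, hPV⟩) from (hV.fromSpec_primeIdealOf ⟨P, hPV⟩).symm]
    show hV.primeIdealOf ⟨P, hPV⟩ ∈ hV.fromSpec ⁻¹ᵁ C.basicOpen d
    rw [hV.fromSpec_preimage_basicOpen]
    exact hd
  obtain ⟨v, hv⟩ := exists_inv_res d
  have hη := gen_mem hPd
  set G := germGen V (gen_mem hPV)
  have hG : ∀ r, algebraMap Γ(C, V) C.functionField r = G r := fun r => rfl
  have hv' : G d * germGen (C.basicOpen d) hη v = 1 := by
    have := congrArg (germGen (C.basicOpen d) hη) hv
    rw [map_mul, map_one] at this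
    refine Eq.trans (congrArg (· * _) ?_) this
    exact (germGen_res (C.basicOpen_le d) hη d).symm
  have hne : ∀ r, r ≠ 0 → G r ≠ 0 := fun r hr h0 =>
    hr (germGen_injective V (gen_mem hPV) (h0.trans (map_zero _).symm))
  have hb' : G b ≠ 0 := hne b (nonZeroDivisors.ne_zero hb)
  have ha' : G a ≠ 0 := hne a ha
  have hx : IsLocalization.mk' C.functionField a (⟨b, hb⟩ : nonZeroDivisors Γ(C, V)) = G a / G b := by
    rw [IsFractionRing.mk'_eq_div, hG, hG]
  rcases he with he | he
  · left
    refine le_regOpen ⟨hη, C.presheaf.map (homOfLE (C.basicOpen_le d)).op e * v, ?_⟩ hPd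
    have := congrArg G he
    rw [map_mul, map_mul] at this
    rw [map_mul, germGen_res, hx, eq_div_iff hb']
    linear_combination (-germGen (C.basicOpen d) hη v) * this + G a * hv'
  · right
    refine le_regOpen ⟨hη, C.presheaf.map (homOfLE (C.basicOpen_le d)).op e * v, ?_⟩ hPd
    have := congrArg G he
    rw [map_mul, map_mul] at this
    rw [map_mul, germGen_res, hx, inv_div, eq_div_iff ha']
    linear_combination (-germGen (C.basicOpen d) hη v) * this + G b * hv'

section Coord

variable (x : C.functionField)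

/-- Polynomials in the coordinate as sections. -/
def coordHom : k[X] →+* Γ(C, regOpen x) :=
  Polynomial.eval₂RingHom (secHom c (regOpen x)) (sec x)

/-- The map to the line. -/
def toLine : (regOpen x).toScheme ⟶ Spec (CommRingCat.of k[X]) :=
  (regOpen x).toSpecΓ ≫ Spec.map (CommRingCat.ofHom (coordHom c x))

theorem toLine_comp :
    toLine c x ≫ Spec.map (CommRingCat.ofHom (Polynomial.C : k →+* k[X])) = (regOpen x).ι ≫ c := by
  rw [toLine, Category.assoc, ← Spec.map_comp, ← CommRingCat.ofHom_comp, ← toSpecΓ_secHom]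
  congr 3
  ext a
  simp [coordHom]

theorem comp_toLine {W : C.Opens} (hW : IsAffineOpen W) (h : W ≤ regOpen x) :
    hW.isoSpec.inv ≫ C.homOfLE h ≫ toLine c x =
      Spec.map (CommRingCat.ofHom (coordHom c x) ≫ C.presheaf.map (homOfLE h).op) := by
  rw [toLine, ← Scheme.Opens.toSpecΓ_SpecMap_presheaf_map_assoc W (regOpen x) h,
    IsAffineOpen.isoSpec_inv_toSpecΓ_assoc, ← Spec.map_comp]

variable {x}

include c in
/-- A nonconstant coordinate is transcendental. -/
theorem coordHom_injective (hx : ∀ a, x ≠ const c a) (W : C.Opens) (hη : genericPoint C ∈ W)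
    (h : W ≤ regOpen x) :
    Function.Injective fun g => C.presheaf.map (homOfLE h).op (coordHom c x g) := by
  have he : ∀ g, germGen W hη (C.presheaf.map (homOfLE h).op (coordHom c x g)) =
      g.eval₂ (const c) x := fun g => by
    rw [germGen_res]
    show (germGen _ _).hom (Polynomial.eval₂ _ _ g) = _
    rw [Polynomial.hom_eval₂]
    congr 1
    · exact RingHom.ext fun a => germGen_secHom c _ _ a
    · exact germGen_sec x
  intro g g' hg
  by_contra hne
  have h0 : (g - g').eval₂ (const c) x = 0 := by
    rw [Polynomial.eval₂_sub, ← he, ← he, sub_eq_zero]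
    exact congrArg (germGen W hη) hg
  have hsp := (IsAlgClosed.splits (g - g')).eq_prod_roots
  rw [hsp, Polynomial.eval₂_mul, Polynomial.eval₂_C, Polynomial.eval₂_multiset_prod] at h0
  rcases mul_eq_zero.mp h0 with h1 | h1
  · exact Polynomial.leadingCoeff_ne_zero.mpr (sub_ne_zero.mpr hne)
      ((map_eq_zero_iff _ (const c).injective).mp h1)
  · rw [Multiset.prod_eq_zero_iff, Multiset.map_map, Multiset.mem_map] at h1
    obtain ⟨r, -, hr⟩ := h1
    rw [Function.comp_apply, Polynomial.eval₂_sub, Polynomial.eval₂_X, Polynomial.eval₂_C,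
      sub_eq_zero] at hr
    exact hx r hr

/-- The map to the line is quasi-compact, separated and locally of finite type. -/
theorem isAffine_regOpen_aux : QuasiCompact (toLine c x) ∧ IsSeparated (toLine c x) ∧
    LocallyOfFiniteType (toLine c x) := by
  haveI := noetherianSpace c
  haveI : CompactSpace (regOpen x).toScheme :=
    isCompact_iff_compactSpace.mp (NoetherianSpace.isCompact ((regOpen x) : Set C))
  have e := toLine_comp c x
  haveI : IsSeparated (toLine c x ≫ Spec.map (CommRingCat.ofHom (Polynomial.C : k →+* k[X]))) := by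
    rw [e]; infer_instance
  haveI : LocallyOfFiniteType
      (toLine c x ≫ Spec.map (CommRingCat.ofHom (Polynomial.C : k →+* k[X]))) := by
    rw [e]; infer_instance
  exact ⟨(quasiCompact_iff_compactSpace _).mpr ‹_›,
    IsSeparated.of_comp _ (Spec.map (CommRingCat.ofHom (Polynomial.C : k →+* k[X]))),
    locallyOfFiniteType_of_comp _ (Spec.map (CommRingCat.ofHom (Polynomial.C : k →+* k[X])))⟩

/-- The map to the line is universally closed, by the valuative criterion. -/
theorem universallyClosed_toLine (hx0 : x ≠ 0) : UniversallyClosed (toLine c x) := by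
  obtain ⟨hqc, -, -⟩ := isAffine_regOpen_aux c (x := x)
  haveI := hqc
  refine UniversallyClosed.of_valuativeCriterion _ fun S => ?_
  obtain ⟨R, K, i₁, i₂, hcs⟩ := S
  have hw : i₁ ≫ toLine c x = Spec.map (CommRingCat.ofHom (algebraMap R K)) ≫ i₂ := hcs.w
  have hEx : ValuativeCriterion.Existence c :=
    (UniversallyClosed.eq_valuativeCriterion ▸ (inferInstance : UniversallyClosed c)).1
  obtain ⟨⟨ψ, hψ₁, hψ₂⟩⟩ := (hEx ⟨R, K, i₁ ≫ (regOpen x).ι,
    i₂ ≫ Spec.map (CommRingCat.ofHom (Polynomial.C : k →+* k[X])),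
    ⟨by rw [Category.assoc, ← toLine_comp, reassoc_of% hw]⟩⟩).exists_lift
  let U : C.Opens := regOpen x
  let P : C := ψ (IsLocalRing.closedPoint R)
  have hrange : ∀ (V : C.Opens), P ∈ V → Set.range ψ ⊆ V := by
    rintro V hV _ ⟨z, rfl⟩
    exact ((IsLocalRing.specializes_closedPoint z).map ψ.continuous).mem_open V.isOpen hV
  have hPU : P ∈ U := by
    by_contra hPU
    have hP' : P ∈ regOpen x⁻¹ := (mem_regOpen_or_inv c x P).resolve_left hPU
    obtain ⟨V, hV, hPV, hVle'⟩ := exists_isAffineOpen_mem_and_subset hP'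
    have hVle : V ≤ regOpen x⁻¹ := hVle'
    set t := C.presheaf.map (homOfLE hVle).op (sec x⁻¹)
    have hPt : P ∉ C.basicOpen t := by
      intro h
      have h2 : P ∈ C.basicOpen (sec x⁻¹) :=
        ((Scheme.basicOpen_res C (sec x⁻¹) (homOfLE hVle).op).le h).2
      rw [basicOpen_sec (inv_ne_zero hx0), inv_inv] at h2
      exact hPU h2.2
    have hψV : Set.range ψ ⊆ Set.range hV.fromSpec := by
      rw [hV.range_fromSpec]; exact hrange V hPV
    set φ := Spec.preimage (IsOpenImmersion.lift hV.fromSpec ψ hψV)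
    have hφ : Spec.map φ ≫ hV.fromSpec = ψ := by
      rw [Spec.map_preimage, IsOpenImmersion.lift_fac]
    -- a small affine open around the image of the field point
    set Q : C := (i₁ ≫ U.ι) (IsLocalRing.closedPoint K)
    have hQV : Q ∈ V := by
      have e : Q = (Spec.map (CommRingCat.ofHom (algebraMap R K)) ≫ ψ) (IsLocalRing.closedPoint K) := by
        rw [hψ₁]
      rw [e]
      exact hrange V hPV ⟨_, rfl⟩
    have hQU : Q ∈ U := ((i₁ (IsLocalRing.closedPoint K)) : U).2
    obtain ⟨W, hW, hQW, hWle⟩ := exists_isAffineOpen_mem_and_subset (x := Q) (U := V ⊓ U) ⟨hQV, hQU⟩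
    have hWr : Set.range (i₁ ≫ U.ι) ⊆ Set.range hW.fromSpec := by
      rw [hW.range_fromSpec]
      rintro _ ⟨z, rfl⟩
      obtain rfl := Subsingleton.elim z (IsLocalRing.closedPoint K)
      exact hQW
    set χ := Spec.preimage (IsOpenImmersion.lift hW.fromSpec (i₁ ≫ U.ι) hWr)
    have hχ : Spec.map χ ≫ hW.fromSpec = i₁ ≫ U.ι := by
      rw [Spec.map_preimage, IsOpenImmersion.lift_fac]
    have hWV : W ≤ V := hWle.trans inf_le_left
    have hWU : W ≤ U := hWle.trans inf_le_right
    have h1 : C.presheaf.map (homOfLE hWV).op ≫ χ = φ ≫ CommRingCat.ofHom (algebraMap R K) := by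
      refine Spec.map_injective ?_
      rw [← cancel_mono hV.fromSpec, Spec.map_comp, Category.assoc,
        IsAffineOpen.map_fromSpec hV hW, hχ, Spec.map_comp, Category.assoc, hφ, hψ₁]
    have h2 : CommRingCat.ofHom (coordHom c x) ≫ C.presheaf.map (homOfLE hWU).op ≫ χ =
        Spec.preimage i₂ ≫ CommRingCat.ofHom (algebraMap R K) := by
      refine Spec.map_injective ?_
      have e : i₁ = Spec.map χ ≫ hW.isoSpec.inv ≫ C.homOfLE hWU := by
        rw [← cancel_mono U.ι, Category.assoc, Category.assoc, Scheme.homOfLE_ι, ← hχ]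
        rfl
      conv_rhs => rw [Spec.map_comp, Spec.map_preimage, ← hw, e]
      simp only [Category.assoc, comp_toLine c x hW hWU, Spec.map_comp]
    have hts : C.presheaf.map (homOfLE hWV).op t * C.presheaf.map (homOfLE hWU).op (sec x) = 1 := by
      refine germGen_injective W (gen_mem hQW) ?_
      rw [map_mul, germGen_res, germGen_res, map_one]
      exact (congrArg₂ (· * ·) (germGen_sec x⁻¹)
        ((germGen_res hWU (gen_mem hQW) _).trans (germGen_sec x))).trans (inv_mul_cancel₀ hx0)
    have hu : algebraMap R K (φ t * Spec.preimage i₂ Polynomial.X) = 1 := by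
      rw [map_mul]
      have a1 : χ (C.presheaf.map (homOfLE hWV).op t) = algebraMap R K (φ t) :=
        congrArg (fun f : Γ(C, V) ⟶ CommRingCat.of K => f t) h1
      have a2 : χ (C.presheaf.map (homOfLE hWU).op (coordHom c x Polynomial.X)) =
          algebraMap R K (Spec.preimage i₂ Polynomial.X) :=
        congrArg (fun f : CommRingCat.of k[X] ⟶ CommRingCat.of K => f Polynomial.X) h2
      rw [← a1, ← a2, ← map_mul, show coordHom c x Polynomial.X = sec x from
        Polynomial.eval₂_X _ _, hts, map_one]
    refine hPt ?_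
    rw [show P = (Spec.map φ ≫ hV.fromSpec) (IsLocalRing.closedPoint R) by rw [hφ]]
    show Spec.map φ (IsLocalRing.closedPoint R) ∈ hV.fromSpec ⁻¹ᵁ C.basicOpen t
    rw [hV.fromSpec_preimage_basicOpen]
    show φ t ∉ IsLocalRing.maximalIdeal R
    exact fun hmem => hmem (IsUnit.of_mul_eq_one _
      (IsFractionRing.injective R K (hu.trans (map_one _).symm)))
  refine ⟨⟨⟨IsOpenImmersion.lift U.ι ψ (by rw [Scheme.Opens.range_ι]; exact hrange U hPU),
    ?_, ?_⟩⟩⟩
  · rw [← cancel_mono U.ι, Category.assoc, IsOpenImmersion.lift_fac, hψ₁]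
  · set L := IsOpenImmersion.lift U.ι ψ (by rw [Scheme.Opens.range_ι]; exact hrange U hPU)
    have hL : Spec.map (CommRingCat.ofHom (algebraMap R K)) ≫ L = i₁ := by
      rw [← cancel_mono U.ι, Category.assoc, IsOpenImmersion.lift_fac, hψ₁]
    have e : Spec.preimage (L ≫ toLine c x) ≫ CommRingCat.ofHom (algebraMap R K) =
        Spec.preimage i₂ ≫ CommRingCat.ofHom (algebraMap R K) := by
      refine Spec.map_injective ?_
      rw [Spec.map_comp, Spec.map_comp, Spec.map_preimage, Spec.map_preimage, reassoc_of% hL, hw]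
    have e2 : Spec.preimage (L ≫ toLine c x) = Spec.preimage i₂ := by
      refine CommRingCat.hom_ext (RingHom.ext fun g => IsFractionRing.injective R K ?_)
      exact congrArg (fun f : CommRingCat.of k[X] ⟶ CommRingCat.of K => f g) e
    rw [← Spec.map_preimage (L ≫ toLine c x), e2, Spec.map_preimage]

/-- The locus of regularity is affine and finite over the line. -/
theorem isAffineOpen_regOpen (hx : ∀ a, x ≠ const c a) :
    IsAffineOpen (regOpen x) ∧ (coordHom c x).Finite := by
  have hx0 : x ≠ 0 := fun h => hx 0 (by rw [map_zero]; exact h)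
  obtain ⟨hqc, hsep, hlft⟩ := isAffine_regOpen_aux c (x := x)
  haveI := hqc
  haveI := hsep
  haveI := hlft
  haveI := universallyClosed_toLine c hx0
  haveI : IsProper (toLine c x) := {}
  set U := regOpen x
  have hgen : toLine c x ⟨genericPoint C, gen_mem_regOpen x⟩ = (⊥ : PrimeSpectrum k[X]) := by
    obtain ⟨W, hW, hηW, hWU'⟩ := exists_isAffineOpen_mem_and_subset (gen_mem_regOpen x)
    have hWU : W ≤ regOpen x := hWU'
    haveI : Nonempty W := ⟨⟨_, hηW⟩⟩
    haveI := isDomain_sections hηW
    set z := hW.primeIdealOf ⟨genericPoint C, hηW⟩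
    have e : (hW.isoSpec.inv ≫ C.homOfLE hWU) z =
        (⟨genericPoint C, gen_mem_regOpen x⟩ : U) := by
      refine (regOpen x).ι.isOpenEmbedding.injective ?_
      refine (Scheme.Hom.comp_apply (hW.isoSpec.inv ≫ C.homOfLE hWU) (regOpen x).ι z).symm.trans ?_
      rw [Category.assoc, Scheme.homOfLE_ι]
      exact hW.fromSpec_primeIdealOf ⟨genericPoint C, hηW⟩
    rw [← e]
    refine (Scheme.Hom.comp_apply (hW.isoSpec.inv ≫ C.homOfLE hWU) (toLine c x) z).symm.trans ?_
    rw [Category.assoc, comp_toLine c x hW hWU]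
    refine PrimeSpectrum.ext ?_
    show Ideal.comap _ z.asIdeal = ⊥
    rw [primeIdealOf_gen hW hηW]
    exact (Ideal.comap_bot_of_injective _ (coordHom_injective c hx W hηW hWU))
  haveI : LocallyQuasiFinite (toLine c x) := by
    refine LocallyQuasiFinite.of_finite_preimage_singleton _ fun p => ?_
    set η : U := ⟨genericPoint C, gen_mem_regOpen x⟩
    by_cases hsub : toLine c x ⁻¹' {p} ⊆ {η}
    · exact (Set.finite_singleton η).subset hsub
    obtain ⟨P, hPp, hPη⟩ := Set.not_subset.mp hsub
    have hclP : IsClosed ({P} : Set U) := by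
      have h := (isClosed_singleton' c (P := U.ι P)
        (fun e => hPη (Subtype.ext e))).preimage U.ι.continuous
      convert h
      exact Set.ext fun z => ⟨fun h => congrArg U.ι h, fun h => Subtype.ext h⟩
    have hp : IsClosed ({p} : Set _) := by
      have h := (toLine c x).isClosedMap _ hclP
      rwa [Set.image_singleton, show toLine c x P = p from hPp] at h
    have hne : toLine c x η ≠ p := by
      intro e
      rw [← e, hgen] at hp
      have hm := (PrimeSpectrum.isClosed_singleton_iff_isMaximal (⊥ : PrimeSpectrum k[X])).mp hp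
      exact Polynomial.not_isField k (Ring.isField_iff_maximal_bot.mpr hm)
    have hclosed : IsClosed (toLine c x ⁻¹' {p}) := hp.preimage (toLine c x).continuous
    set Z : Set C := closure (U.ι '' (toLine c x ⁻¹' {p}))
    have hηZ : genericPoint C ∉ Z := by
      intro h
      have h2 : η ∈ closure (toLine c x ⁻¹' {p}) := by
        rw [(regOpen x).ι.isOpenEmbedding.isInducing.closure_eq_preimage_closure_image]
        exact h
      rw [hclosed.closure_eq] at h2
      exact hne h2
    exact ((finite_of_isClosed c isClosed_closure hηZ).preimage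
      U.ι.isOpenEmbedding.injective.injOn).subset
        fun z hz => subset_closure (Set.mem_image_of_mem _ hz)
  haveI : IsFinite (toLine c x) := IsFinite.of_isProper_of_locallyQuasiFinite _
  have hU : IsAffineOpen U := isAffine_of_isAffineHom (toLine c x)
  refine ⟨hU, ?_⟩
  have e : Spec.map (CommRingCat.ofHom (coordHom c x)) = hU.isoSpec.inv ≫ toLine c x := by
    rw [toLine, IsAffineOpen.isoSpec_inv_toSpecΓ_assoc]
  haveI : IsFinite (Spec.map (CommRingCat.ofHom (coordHom c x))) := by
    rw [e]; infer_instance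
  exact (IsFinite.SpecMap_iff (CommRingCat.ofHom (coordHom c x))).mp inferInstance

end Coord

/-- Global functions are constant. -/
theorem bijective_secHom_top : Function.Bijective (secHom c ⊤) := by
  haveI : Nonempty (⊤ : C.Opens) := ⟨⟨genericPoint C, trivial⟩⟩
  letI := secAlg c ⊤
  haveI : Module.Finite k Γ(C, ⊤) := by
    have h : (c.appLE ⊤ ⊤ (le_preTop c ⊤)).hom.Finite := by
      have h0 := finite_appTop_of_universallyClosed k c
      convert h0 using 2
      exact Scheme.Hom.appLE_eq_app c
    exact RingHom.finite_respectsIso.2 _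
      (Scheme.ΓSpecIso (CommRingCat.of k)).symm.commRingCatIsoToRingEquiv h
  exact IsAlgClosed.algebraMap_bijective_of_isIntegral (k := k) (K := Γ(C, ⊤))

end FLTAgent.JacRep.CurveA
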